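/-
LR-E, file 2: transfer of a general Weierstrass curve to Legendre form `y² = x (x - e) (x - r)`
over a field where `2` is invertible and the two-torsion polynomial splits.

* `lreVC W e₁` : the change of variables `(x, y) ↦ (x - e₁, y + (a₁ x + a₃) / 2)`;
* `lre_isLeg` : if `4 X³ + b₂ X² + 2 b₄ X + b₆ = 4 (X - e₁) (X - e₂) (X - e₃)` then `lreVC W e₁ • W`
  is the Legendre curve with roots `0, e₂ - e₁, e₃ - e₁`;
* `lre_Δ_eq` : `Δ = 16 ((e₁ - e₂) (e₁ - e₃) (e₂ - e₃))²`.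
-/
import Fermat.Agent.Lib.S05.Legendre
import Fermat.Agent.Lib.X015.VariableChangePoint

set_option autoImplicit false

open WeierstrassCurve

namespace Fermat.Agent.LR

open Fermat.Agent.S05Lib Fermat.Agent.X015

/-- the roots `e₁, e₂, e₃` of the two-torsion polynomial, via Vieta -/
structure LreRoots {R : Type*} [CommRing R] (W : WeierstrassCurve R) (e₁ e₂ e₃ : R) : Prop where
  hb₂ : W.b₂ = -4 * (e₁ + e₂ + e₃)
  hb₄ : W.b₄ = 2 * (e₁ * e₂ + e₁ * e₃ + e₂ * e₃)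
  hb₆ : W.b₆ = -4 * (e₁ * e₂ * e₃)

lemma LreRoots.map {R S : Type*} [CommRing R] [CommRing S] {W : WeierstrassCurve R}
    {e₁ e₂ e₃ : R} (h : LreRoots W e₁ e₂ e₃) (f : R →+* S) :
    LreRoots (W.map f) (f e₁) (f e₂) (f e₃) where
  hb₂ := by rw [WeierstrassCurve.map_b₂, h.hb₂]; simp [map_ofNat]
  hb₄ := by rw [WeierstrassCurve.map_b₄, h.hb₄]; simp [map_ofNat]
  hb₆ := by rw [WeierstrassCurve.map_b₆, h.hb₆]; simp [map_ofNat]

/-- the Legendre curve `y² = x (x - e) (x - r)` -/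
def lreLeg {R : Type*} [CommRing R] (e r : R) : WeierstrassCurve R := ⟨0, -(e + r), 0, e * r, 0⟩

lemma lreLeg_map {R S : Type*} [CommRing R] [CommRing S] (e r : R) (f : R →+* S) :
    (lreLeg e r).map f = lreLeg (f e) (f r) := by
  ext <;> simp [lreLeg, WeierstrassCurve.map]

variable {F : Type*} [Field F]

lemma isLeg_lreLeg (e r : F) : IsLeg (lreLeg e r) (-(e + r)) (e * r) where
  a₁ := rfl
  a₂ := rfl
  a₃ := rfl
  a₄ := rfl
  a₆ := rfl

/-- the change of variables `(x, y) ↦ (x - e₁, y + (a₁ x + a₃) / 2)` -/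
noncomputable def lreVC (W : WeierstrassCurve F) (e₁ : F) : VariableChange F :=
  ⟨1, e₁, -W.a₁ / 2, -(W.a₃ + e₁ * W.a₁) / 2⟩

lemma lreVC_u (W : WeierstrassCurve F) (e₁ : F) : ((lreVC W e₁).u : F) = 1 := rfl

lemma lreVC_uinv (W : WeierstrassCurve F) (e₁ : F) : (((lreVC W e₁).u⁻¹ : Fˣ) : F) = 1 := by
  simp [lreVC]

lemma lre_isLeg (h2 : (2 : F) ≠ 0) {W : WeierstrassCurve F} {e₁ e₂ e₃ : F}
    (hr : LreRoots W e₁ e₂ e₃) :
    IsLeg (lreVC W e₁ • W) (-((e₂ - e₁) + (e₃ - e₁))) ((e₂ - e₁) * (e₃ - e₁)) := by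
  have h4 : (4 : F) ≠ 0 := by
    have : (4 : F) = 2 * 2 := by norm_num
    rw [this]; exact mul_ne_zero h2 h2
  obtain ⟨hb₂, hb₄, hb₆⟩ := hr
  simp only [WeierstrassCurve.b₂, WeierstrassCurve.b₄, WeierstrassCurve.b₆] at hb₂ hb₄ hb₆
  constructor
  · rw [variableChange_a₁, lreVC_uinv]
    simp only [lreVC]
    field_simp
    ring
  · rw [variableChange_a₂, lreVC_uinv]
    simp only [lreVC]
    field_simp
    linear_combination hb₂
  · rw [variableChange_a₃, lreVC_uinv]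
    simp only [lreVC]
    field_simp
    ring
  · rw [variableChange_a₄, lreVC_uinv]
    simp only [lreVC]
    field_simp
    linear_combination hb₄ + e₁ * hb₂
  · rw [variableChange_a₆, lreVC_uinv]
    simp only [lreVC]
    field_simp
    linear_combination hb₆ + 2 * e₁ * hb₄ + e₁ ^ 2 * hb₂

lemma lre_smul_eq (h2 : (2 : F) ≠ 0) {W : WeierstrassCurve F} {e₁ e₂ e₃ : F}
    (hr : LreRoots W e₁ e₂ e₃) : lreVC W e₁ • W = lreLeg (e₂ - e₁) (e₃ - e₁) := by
  have h := lre_isLeg h2 hr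
  ext
  · rw [h.a₁]; rfl
  · rw [h.a₂]; rfl
  · rw [h.a₃]; rfl
  · rw [h.a₄]; rfl
  · rw [h.a₆]; rfl

end Fermat.Agent.LR
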