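/-
LR-E, file 3: two `n`-torsion points of a Weierstrass curve with good reduction that are congruent
modulo the maximal ideal are equal (`n` a unit, residue characteristic `≠ 2`).

The curve is moved to Legendre form by `lreVC` (file `Leg.lean`) and the statement is reduced to
`S05Lib.exists_inE_sub_of_close` and `S05Lib.eq_zero_of_inE_of_nsmul`.
-/
import Fermat.Agent.Lib.LR.E.Leg
import Fermat.Agent.Lib.S05.Roots

set_option autoImplicit false
set_option linter.unusedSectionVars false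

open WeierstrassCurve WeierstrassCurve.Affine

namespace Fermat.Agent.LR

open Fermat.Agent.S05Lib Fermat.Agent.X015

variable {K : Type*} [Field K] [DecidableEq K] {v : QVal K}

/-- the hypotheses "good reduction, residue characteristic not two" in terms of the roots of the
two-torsion polynomial -/
structure LreGood (v : QVal K) (W : WeierstrassCurve K) (e₁ e₂ e₃ : K) : Prop where
  roots : LreRoots W e₁ e₂ e₃
  two : v.Is (2 : K) 0
  a₁ : v.Ge W.a₁ 0
  a₃ : v.Ge W.a₃ 0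
  ge₁ : v.Ge e₁ 0
  ge₂ : v.Ge e₂ 0
  ge₃ : v.Ge e₃ 0
  is₁₂ : v.Is (e₁ - e₂) 0
  is₁₃ : v.Is (e₁ - e₃) 0
  is₂₃ : v.Is (e₂ - e₃) 0

section

variable {W : WeierstrassCurve K} {e₁ e₂ e₃ : K}

lemma LreGood.two_ne_zero (hg : LreGood v W e₁ e₂ e₃) : (2 : K) ≠ 0 := hg.two.1

lemma LreGood.isLeg (hg : LreGood v W e₁ e₂ e₃) :
    IsLeg (lreVC W e₁ • W) (-((e₂ - e₁) + (e₃ - e₁))) ((e₂ - e₁) * (e₃ - e₁)) :=
  lre_isLeg hg.two_ne_zero hg.roots

lemma LreGood.is_e (hg : LreGood v W e₁ e₂ e₃) : v.Is (e₂ - e₁) 0 := by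
  have := hg.is₁₂.neg
  rwa [neg_sub] at this

lemma LreGood.is_r (hg : LreGood v W e₁ e₂ e₃) : v.Is (e₃ - e₁) 0 := by
  have := hg.is₁₃.neg
  rwa [neg_sub] at this

lemma LreGood.is_er (hg : LreGood v W e₁ e₂ e₃) : v.Is ((e₂ - e₁) - (e₃ - e₁)) 0 := by
  have : (e₂ - e₁) - (e₃ - e₁) = e₂ - e₃ := by ring
  rw [this]
  exact hg.is₂₃

lemma LreGood.ge_a (hg : LreGood v W e₁ e₂ e₃) : v.Ge (-((e₂ - e₁) + (e₃ - e₁))) 0 :=
  (hg.is_e.ge.add hg.is_r.ge).neg

lemma LreGood.ge_b (hg : LreGood v W e₁ e₂ e₃) : v.Ge ((e₂ - e₁) * (e₃ - e₁)) 0 :=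
  (hg.is_e.mul0 hg.is_r).ge

/-- the `x`-coordinate on the Legendre model -/
lemma lre_vcXinv (W : WeierstrassCurve K) (e₁ x : K) : vcXinv (lreVC W e₁) x = x - e₁ := by
  rw [vcXinv, lreVC_uinv]
  simp [lreVC]

/-- the `y`-coordinate on the Legendre model -/
lemma lre_vcYinv (W : WeierstrassCurve K) (e₁ x y : K) :
    vcYinv (lreVC W e₁) x y = y + W.a₁ / 2 * (x - e₁) + (W.a₃ + e₁ * W.a₁) / 2 := by
  rw [vcYinv, lreVC_uinv]
  simp only [lreVC]
  ring

/-- `n`-torsion points have integral coordinates -/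
lemma lre_x_integral (hg : LreGood v W e₁ e₂ e₃) {n : ℕ} (hn : v.Is (n : K) 0)
    {x y : K} (h : W.toAffine.Nonsingular x y) (hP : n • Point.some x y h = 0) : v.Ge x 0 := by
  rcases QVal.lt_or_ge (v := v) x 0 with hlt | hge
  · exfalso
    obtain ⟨h1, e1⟩ := vcPointEquiv_some (lreVC W e₁) W h
    have hX : v.Lt (vcXinv (lreVC W e₁) x) 0 := by
      rw [lre_vcXinv]
      exact hlt.sub_ge hg.ge₁
    have hτ : 0 < -v.ord (vcXinv (lreVC W e₁) x) := by linarith [hX.2]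
    have hin : InE v (-v.ord (vcXinv (lreVC W e₁) x))
        (vcPointEquiv (lreVC W e₁) W (Point.some x y h)) := by
      rw [e1, inE_some]
      exact ⟨hX.1, by linarith⟩
    have hn0 : n • vcPointEquiv (lreVC W e₁) W (Point.some x y h) = 0 := by
      rw [← map_nsmul, hP, map_zero]
    have h0 := eq_zero_of_inE_of_nsmul hg.isLeg hg.ge_a hg.ge_b hg.two hτ hin hn hn0
    rw [e1] at h0
    exact Point.some_ne_zero _ h0
  · exact hge

/-- **Close torsion points are equal.** -/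
theorem lre_eq_of_close (hg : LreGood v W e₁ e₂ e₃) {n : ℕ} (hn : v.Is (n : K) 0)
    {x y x' y' : K} (h : W.toAffine.Nonsingular x y) (h' : W.toAffine.Nonsingular x' y')
    (hP : n • Point.some x y h = 0) (hP' : n • Point.some x' y' h' = 0)
    (hxx : v.Gt (x' - x) 0) (hyy : v.Gt (y' - y) 0) : x' = x ∧ y' = y := by
  set C := lreVC W e₁ with hC
  obtain ⟨h1, e1⟩ := vcPointEquiv_some C W h
  obtain ⟨h1', e1'⟩ := vcPointEquiv_some C W h'
  have hx : v.Ge x 0 := lre_x_integral hg hn h hP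
  have hX : v.Ge (vcXinv C x) 0 := by
    rw [hC, lre_vcXinv]
    exact hx.sub hg.ge₁
  have hns := good_of_roots hg.isLeg hg.is_e hg.is_r hg.is_er _ _ h1 hX
  have hXX : v.Gt (vcXinv C x' - vcXinv C x) 0 := by
    rw [hC, lre_vcXinv, lre_vcXinv]
    have : x' - e₁ - (x - e₁) = x' - x := by ring
    rw [this]
    exact hxx
  have hYY : v.Gt (vcYinv C x' y' - vcYinv C x y) 0 := by
    rw [hC, lre_vcYinv, lre_vcYinv]
    have : y' + W.a₁ / 2 * (x' - e₁) + (W.a₃ + e₁ * W.a₁) / 2 -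
        (y + W.a₁ / 2 * (x - e₁) + (W.a₃ + e₁ * W.a₁) / 2) =
        (y' - y) + W.a₁ / 2 * (x' - x) := by ring
    rw [this]
    have h3 : v.Ge (W.a₁ / 2) 0 := by
      have := hg.a₁.div_is hg.two
      simpa using this
    have h4 : v.Gt (W.a₁ / 2 * (x' - x)) 0 := by
      have := h3.mul_gt hxx
      simpa using this
    exact hyy.add h4
  obtain ⟨τ, hτ, hin⟩ := exists_inE_sub_of_close hg.isLeg hg.ge_a hg.ge_b hg.two h1 h1' hX hns
    hXX hYY
  have hn0 : n • (Point.some _ _ h1' - Point.some _ _ h1 : (C • W).toAffine.Point) = 0 := by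
    rw [smul_sub, ← e1, ← e1', ← map_nsmul, ← map_nsmul, hP, hP', map_zero, sub_zero]
  have h0 := eq_zero_of_inE_of_nsmul hg.isLeg hg.ge_a hg.ge_b hg.two hτ hin hn hn0
  rw [sub_eq_zero, ← e1, ← e1'] at h0
  have h00 := (vcPointEquiv C W).injective h0
  rw [Point.some.injEq] at h00
  exact h00

end

end Fermat.Agent.LR
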