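/-
LR-E, file 4: dictionary between a valuation subring `A` of a field `K` and a `ℚ`-valued
valuation `v : QVal K` with `x ∈ A ↔ v.Ge x 0`; products; characteristic of the residue field.
-/
import Fermat.Agent.Lib.S05.QVal
import Fermat.Prelude.Def_FLTPrelim_Ramification

set_option autoImplicit false
set_option linter.unusedSectionVars false

namespace Fermat.Agent.LR

open Fermat.Agent.S05Lib

variable {K : Type*} [Field K]

/-- `v` is a `ℚ`-valued valuation whose valuation ring is `A` -/
structure LreVal (A : ValuationSubring K) (v : QVal K) : Prop where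
  mem_iff : ∀ x, x ∈ A ↔ v.Ge x 0

section

variable {A : ValuationSubring K} {v : QVal K} (hv : LreVal A v)
include hv

lemma LreVal.ge_of_mem {x : K} (hx : x ∈ A) : v.Ge x 0 := (hv.mem_iff x).mp hx

lemma LreVal.mem_of_ge {x : K} (hx : v.Ge x 0) : x ∈ A := (hv.mem_iff x).mpr hx

lemma LreVal.ge_coe (x : A) : v.Ge (x : K) 0 := hv.ge_of_mem x.2

lemma LreVal.gt_iff (x : K) : v.Gt x 0 ↔ A.valuation x < 1 := by
  by_cases hx : x = 0
  · subst hx
    simp [QVal.Gt]
  · have h1 : A.valuation x < 1 ↔ ¬ (x⁻¹ ∈ A) := by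
      rw [← A.valuation_le_one_iff, map_inv₀, not_le]
      have h0 : A.valuation x ≠ 0 := (Valuation.ne_zero_iff _).mpr hx
      constructor
      · intro h
        exact (one_lt_inv₀ (zero_lt_iff.mpr h0)).mpr h
      · intro h
        exact (one_lt_inv₀ (zero_lt_iff.mpr h0)).mp h
    rw [h1, hv.mem_iff]
    constructor
    · rintro (h | h)
      · exact absurd h hx
      · rintro (h' | h')
        · exact inv_ne_zero hx h'
        · rw [v.ord_inv hx] at h'
          linarith
    · intro h
      right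
      by_contra hcon
      apply h
      right
      rw [v.ord_inv hx]
      linarith

lemma LreVal.gt_of_mem_maximalIdeal {x : A} (hx : x ∈ IsLocalRing.maximalIdeal A) :
    v.Gt (x : K) 0 :=
  (hv.gt_iff _).mpr ((A.valuation_lt_one_iff x).mp hx)

lemma LreVal.gt_of_residue_eq_zero {x : A} (hx : IsLocalRing.residue A x = 0) :
    v.Gt (x : K) 0 :=
  hv.gt_of_mem_maximalIdeal ((IsLocalRing.residue_eq_zero_iff x).mp hx)

lemma LreVal.residue_eq_zero_of_gt {x : A} (hx : v.Gt (x : K) 0) :
    IsLocalRing.residue A x = 0 :=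
  (IsLocalRing.residue_eq_zero_iff x).mpr ((A.valuation_lt_one_iff x).mpr ((hv.gt_iff _).mp hx))

/-- the residue field has characteristic `l` if `l` is not a unit -/
theorem LreVal.charP_residue {l : ℕ} (hl : l.Prime) (hA : A.LiesOverPrime l) :
    CharP (IsLocalRing.ResidueField A) l := by
  have h0 : ((l : ℕ) : IsLocalRing.ResidueField A) = 0 := by
    obtain ⟨hmem, hmax⟩ := (ValuationSubring.mem_nonunits_iff_exists_mem_maximalIdeal).mp hA
    have : IsLocalRing.residue A (⟨(l : K), hmem⟩ : A) = 0 :=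
      (IsLocalRing.residue_eq_zero_iff _).mpr hmax
    have h2 : (⟨(l : K), hmem⟩ : A) = ((l : ℕ) : A) := Subtype.ext (by simp)
    rw [h2, map_natCast] at this
    exact this
  have h1 : ringChar (IsLocalRing.ResidueField A) = l := CharP.ringChar_of_prime_eq_zero hl h0
  rw [← h1]
  exact ringChar.charP _

lemma LreVal.gt_natCast {l : ℕ} (hA : A.LiesOverPrime l) : v.Gt ((l : ℕ) : K) 0 := by
  rw [hv.gt_iff]
  obtain ⟨hmem, hmax⟩ := (ValuationSubring.mem_nonunits_iff_exists_mem_maximalIdeal).mp hA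
  exact (A.valuation_lt_one_iff ⟨_, hmem⟩).mp hmax

lemma LreVal.ge_intCast (n : ℤ) : v.Ge ((n : ℤ) : K) 0 := hv.ge_of_mem (intCast_mem A n)

lemma LreVal.gt_intCast_of_dvd {l : ℕ} (hA : A.LiesOverPrime l) {n : ℤ} (h : (l : ℤ) ∣ n) :
    v.Gt ((n : ℤ) : K) 0 := by
  obtain ⟨m, rfl⟩ := h
  push_cast
  have := (hv.gt_natCast hA).mul_ge (hv.ge_intCast m)
  simpa using this

/-- integers prime to `l` are units -/
lemma LreVal.is_intCast {l : ℕ} (hl : l.Prime) (hA : A.LiesOverPrime l) {n : ℤ}
    (h : ¬ (l : ℤ) ∣ n) : v.Is ((n : ℤ) : K) 0 := by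
  have hcop : IsCoprime (l : ℤ) n :=
    ((Nat.prime_iff_prime_int.mp hl).irreducible.coprime_iff_not_dvd).mpr h
  obtain ⟨a, b, hab⟩ := hcop
  have hK : ((a : ℤ) : K) * (l : K) + (b : K) * (n : K) = 1 := by
    have := congrArg (fun z : ℤ => (z : K)) hab
    push_cast at this
    exact this
  have h1 : v.Gt (((a : ℤ) : K) * (l : K)) 0 := by
    have := (hv.ge_intCast a).mul_gt (hv.gt_natCast hA)
    simpa using this
  have h2 : v.Is (((b : ℤ) : K) * (n : K)) 0 := by
    have h3 : ((b : ℤ) : K) * (n : K) = 1 - ((a : ℤ) : K) * (l : K) := by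
      rw [← hK]; ring
    rw [h3]
    exact QVal.is_one.sub_gt h1
  have hn0 : ((n : ℤ) : K) ≠ 0 := fun h0 => h2.1 (by rw [h0, mul_zero])
  have hb0 : ((b : ℤ) : K) ≠ 0 := fun h0 => h2.1 (by rw [h0, zero_mul])
  refine ⟨hn0, le_antisymm ?_ ((hv.ge_intCast n).resolve_left hn0)⟩
  have h4 := h2.2
  rw [v.ord_mul' hb0 hn0] at h4
  have h5 := (hv.ge_intCast b).resolve_left hb0
  linarith

end

/-- a product of elements that are not in the maximal ideal is not in the maximal ideal -/
lemma lre_le_multiset_prod {v : QVal K} (s : Multiset K) (h : ∀ z ∈ s, v.Le z 0) :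
    v.Le s.prod 0 := by
  induction s using Multiset.induction_on with
  | empty =>
    rw [Multiset.prod_zero]
    exact QVal.is_one.le
  | cons a s ih =>
    rw [Multiset.prod_cons]
    have h1 := h a (Multiset.mem_cons_self a s)
    have h2 := ih fun z hz => h z (Multiset.mem_cons_of_mem hz)
    have := h1.mul h2
    simpa using this

/-- if a product lies in the maximal ideal, so does a factor -/
lemma lre_exists_gt_of_prod_gt {v : QVal K} (s : Multiset K) (h : v.Gt s.prod 0) :
    ∃ z ∈ s, v.Gt z 0 := by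
  by_contra hcon
  push Not at hcon
  have : v.Le s.prod 0 := lre_le_multiset_prod s fun z hz => by
    rcases QVal.le_or_gt (v := v) z 0 with h1 | h1
    · exact h1
    · exact absurd h1 (hcon z hz)
  exact this.not_gt h le_rfl

end Fermat.Agent.LR
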