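/-
LR-E, file 5: lifting torsion points from the residue field.

`A` is a valuation subring of an algebraically closed field `K`, `W` a Weierstrass curve over `A`
whose two-torsion polynomial has the roots `e₁, e₂, e₃ ∈ A` with unit differences (good reduction,
residue characteristic `≠ 2`).  If `(X mod 𝔪, Y mod 𝔪)` is a point of odd order `p` (a unit of `A`)
on the reduced curve, then there is a `p`-torsion point `(x₀, y₀)` of `W` over `K` with
`x₀ ≡ X`, `y₀ ≡ Y` modulo `𝔪` (`lre_exists_lift`).  The proof uses the division polynomial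
`preΨ'_p` of the Legendre model (`S13Lib.nsmul_eq_zero_iff_preΨ'`), which has unit leading
coefficient and splits over `K`.
-/
import Fermat.Agent.Lib.LR.E.Close
import Fermat.Agent.Lib.LR.E.Val
import Fermat.Agent.Lib.S13.DivPoly.Mul
import Fermat.Agent.Lib.S13.Torsion.MulX

set_option autoImplicit false
set_option linter.unusedSectionVars false

open WeierstrassCurve WeierstrassCurve.Affine Polynomial

namespace Fermat.Agent.LR

open Fermat.Agent.S05Lib Fermat.Agent.S13Lib Fermat.Agent.X015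

variable {K : Type*} [Field K] [DecidableEq K]
  {A : ValuationSubring K} {v : QVal K}

/-- integral good-reduction data over the valuation ring -/
structure LreGoodA (A : ValuationSubring K) (v : QVal K) (W : WeierstrassCurve A)
    (e₁ e₂ e₃ : A) : Prop where
  val : LreVal A v
  roots : LreRoots W e₁ e₂ e₃
  two : v.Is (2 : K) 0
  is₁₂ : v.Is ((e₁ : K) - e₂) 0
  is₁₃ : v.Is ((e₁ : K) - e₃) 0
  is₂₃ : v.Is ((e₂ : K) - e₃) 0

section

variable {W : WeierstrassCurve A} {e₁ e₂ e₃ : A} (hg : LreGoodA A v W e₁ e₂ e₃)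
include hg

lemma LreGoodA.good : LreGood v (W.map A.subtype) (e₁ : K) (e₂ : K) (e₃ : K) where
  roots := hg.roots.map A.subtype
  two := hg.two
  a₁ := hg.val.ge_coe W.a₁
  a₃ := hg.val.ge_coe W.a₃
  ge₁ := hg.val.ge_coe e₁
  ge₂ := hg.val.ge_coe e₂
  ge₃ := hg.val.ge_coe e₃
  is₁₂ := hg.is₁₂
  is₁₃ := hg.is₁₃
  is₂₃ := hg.is₂₃

lemma LreGoodA.two_ne_zero_residue : (2 : IsLocalRing.ResidueField A) ≠ 0 := by
  intro h
  have h1 : IsLocalRing.residue A (2 : A) = 0 := by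
    rw [map_ofNat]; exact h
  have h2 := hg.val.gt_of_residue_eq_zero h1
  have h3 : ((2 : A) : K) = 2 := rfl
  rw [h3] at h2
  exact hg.two.not_gt h2 le_rfl

/-- the division polynomial of the Legendre model vanishes modulo `𝔪` at the reduction of a
`p`-torsion point -/
lemma LreGoodA.residue_preΨ'_eq_zero [DecidableEq (IsLocalRing.ResidueField A)] {p : ℕ}
    (hodd : Odd p) {X Y : A}
    (hk : (W.map (IsLocalRing.residue A)).toAffine.Nonsingular
      (IsLocalRing.residue A X) (IsLocalRing.residue A Y))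
    (hP : p • Point.some _ _ hk = 0) :
    IsLocalRing.residue A (((lreLeg (e₂ - e₁) (e₃ - e₁)).preΨ' p).eval (X - e₁)) = 0 := by
  have hrk : LreRoots (W.map (IsLocalRing.residue A)) (IsLocalRing.residue A e₁)
      (IsLocalRing.residue A e₂) (IsLocalRing.residue A e₃) := hg.roots.map _
  have h2k := hg.two_ne_zero_residue
  have hLk := lre_isLeg h2k hrk
  obtain ⟨h1, e1⟩ := vcPointEquiv_some (lreVC (W.map (IsLocalRing.residue A))
    (IsLocalRing.residue A e₁)) (W.map (IsLocalRing.residue A)) hk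
  have hn0 : p • (vcPointEquiv (lreVC (W.map (IsLocalRing.residue A))
      (IsLocalRing.residue A e₁)) (W.map (IsLocalRing.residue A)) (Point.some _ _ hk)) = 0 := by
    rw [← map_nsmul, hP, map_zero]
  rw [e1] at hn0
  have h3 := (nsmul_eq_zero_iff_preΨ' hLk h2k h1 hodd).mp hn0
  rw [lre_smul_eq h2k hrk, lre_vcXinv] at h3
  rw [← map_sub, ← map_sub, ← map_sub] at h3
  rw [← lreLeg_map] at h3
  rw [WeierstrassCurve.map_preΨ', Polynomial.eval_map_apply] at h3
  exact h3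

/-- the Weierstrass equation modulo `𝔪` -/
lemma LreGoodA.gt_polynomial {X Y : A}
    (hk : (W.map (IsLocalRing.residue A)).toAffine.Equation
      (IsLocalRing.residue A X) (IsLocalRing.residue A Y)) :
    v.Gt ((W.map A.subtype).toAffine.polynomial.evalEval (X : K) (Y : K)) 0 := by
  have h1 : (W.map A.subtype).toAffine.polynomial.evalEval (X : K) (Y : K) =
      ((W.toAffine.polynomial.evalEval X Y : A) : K) := by
    simp only [evalEval_polynomial, WeierstrassCurve.map_a₁, WeierstrassCurve.map_a₂,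
      WeierstrassCurve.map_a₃, WeierstrassCurve.map_a₄, WeierstrassCurve.map_a₆]
    simp
  rw [h1]
  apply hg.val.gt_of_residue_eq_zero
  have h2 : (W.map (IsLocalRing.residue A)).toAffine.polynomial.evalEval
      (IsLocalRing.residue A X) (IsLocalRing.residue A Y) = 0 := hk
  simp only [evalEval_polynomial, WeierstrassCurve.map_a₁, WeierstrassCurve.map_a₂,
    WeierstrassCurve.map_a₃, WeierstrassCurve.map_a₄, WeierstrassCurve.map_a₆] at h2
  simp only [evalEval_polynomial, map_sub, map_add, map_mul, map_pow]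
  exact h2

end

/-- a polynomial with unit leading coefficient over an algebraically closed field: a point where
its value lies in the maximal ideal is congruent to a root -/
lemma lre_exists_root_close [IsAlgClosed K] {g : K[X]} (hlc : v.Is g.leadingCoeff 0) {ξ₀ : K}
    (h : v.Gt (g.eval ξ₀) 0) : ∃ ξ₁, g.eval ξ₁ = 0 ∧ v.Gt (ξ₀ - ξ₁) 0 := by
  have hg0 : g ≠ 0 := fun h0 => hlc.1 (by rw [h0, leadingCoeff_zero])
  have he : g.eval ξ₀ = g.leadingCoeff * (g.roots.map fun a => ξ₀ - a).prod := by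
    conv_lhs => rw [(IsAlgClosed.splits g).eq_prod_roots]
    rw [eval_mul, eval_C, eval_multiset_prod, Multiset.map_map]
    congr 2
    apply Multiset.map_congr rfl
    intro a _
    simp
  have h1 : v.Gt (g.roots.map fun a => ξ₀ - a).prod 0 := by
    rcases QVal.le_or_gt (v := v) (g.roots.map fun a => ξ₀ - a).prod 0 with h2 | h2
    · exfalso
      have h3 := hlc.le.mul h2
      rw [← he, add_zero] at h3
      exact h3.not_gt h le_rfl
    · exact h2
  obtain ⟨z, hz, hz0⟩ := lre_exists_gt_of_prod_gt _ h1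
  obtain ⟨a, ha, rfl⟩ := Multiset.mem_map.mp hz
  exact ⟨a, (mem_roots hg0).mp ha, hz0⟩

section

variable [IsAlgClosed K] {W : WeierstrassCurve A} {e₁ e₂ e₃ : A}
  (hg : LreGoodA A v W e₁ e₂ e₃)
include hg

/-- **Lifting torsion points.** -/
theorem LreGoodA.exists_lift [DecidableEq (IsLocalRing.ResidueField A)] {p : ℕ}
    (hodd : Odd p) (hp : v.Is (p : K) 0) {X Y : A}
    (hk : (W.map (IsLocalRing.residue A)).toAffine.Nonsingular
      (IsLocalRing.residue A X) (IsLocalRing.residue A Y))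
    (hP : p • Point.some _ _ hk = 0) :
    ∃ (x₀ y₀ : K) (h₀ : (W.map A.subtype).toAffine.Nonsingular x₀ y₀),
      p • Point.some x₀ y₀ h₀ = 0 ∧ v.Gt (x₀ - (X : K)) 0 ∧ v.Gt (y₀ - (Y : K)) 0 := by
  have hgK := hg.good
  have hL := hgK.isLeg
  have h2K : (2 : K) ≠ 0 := hgK.two_ne_zero
  have hb : ((e₂ : K) - e₁) * ((e₃ : K) - e₁) ≠ 0 :=
    mul_ne_zero hgK.is_e.1 hgK.is_r.1
  have hab : (-(((e₂ : K) - e₁) + ((e₃ : K) - e₁))) ^ 2 -
      4 * (((e₂ : K) - e₁) * ((e₃ : K) - e₁)) ≠ 0 := by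
    have : (-(((e₂ : K) - e₁) + ((e₃ : K) - e₁))) ^ 2 -
      4 * (((e₂ : K) - e₁) * ((e₃ : K) - e₁)) = (((e₂ : K) - e₁) - ((e₃ : K) - e₁)) ^ 2 := by ring
    rw [this]
    exact pow_ne_zero 2 hgK.is_er.1
  -- the value of the division polynomial at `X - e₁`
  have hγ := hg.val.gt_of_residue_eq_zero (hg.residue_preΨ'_eq_zero hodd hk hP)
  have hgK_eq : (lreVC (W.map A.subtype) (e₁ : K) • W.map A.subtype).preΨ' p =
      ((lreLeg (e₂ - e₁) (e₃ - e₁) : WeierstrassCurve A).preΨ' p).map A.subtype := by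
    rw [lre_smul_eq h2K hgK.roots, ← WeierstrassCurve.map_preΨ', lreLeg_map]
    rfl
  have heval : ((lreVC (W.map A.subtype) (e₁ : K) • W.map A.subtype).preΨ' p).eval
      ((X : K) - e₁) =
      ((((lreLeg (e₂ - e₁) (e₃ - e₁) : WeierstrassCurve A).preΨ' p).eval (X - e₁) : A) : K) := by
    rw [hgK_eq]
    exact Polynomial.eval_map_apply A.subtype (X - e₁)
  rw [← heval] at hγ
  have hlc : v.Is ((lreVC (W.map A.subtype) (e₁ : K) • W.map A.subtype).preΨ' p).leadingCoeff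
      0 := by
    rw [WeierstrassCurve.leadingCoeff_preΨ' _ hp.1, if_neg (Nat.not_even_iff_odd.mpr hodd)]
    exact hp
  obtain ⟨ξ₁, hroot, hclose⟩ := lre_exists_root_close hlc hγ
  -- the `y`-coordinate
  obtain ⟨η₁, hη₁⟩ := IsAlgClosed.exists_pow_nat_eq
    (ξ₁ ^ 3 + (-(((e₂ : K) - e₁) + ((e₃ : K) - e₁))) * ξ₁ ^ 2 +
      ((e₂ : K) - e₁) * ((e₃ : K) - e₁) * ξ₁) two_pos
  set Yt := vcYinv (lreVC (W.map A.subtype) (e₁ : K)) (X : K) (Y : K) with hYt
  -- integrality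
  have hξ₀ : v.Ge ((X : K) - e₁) 0 := (hg.val.ge_coe X).sub (hg.val.ge_coe e₁)
  have hξ₁ : v.Ge ξ₁ 0 := by
    have : ξ₁ = ((X : K) - e₁) - ((X : K) - e₁ - ξ₁) := by ring
    rw [this]
    exact hξ₀.sub hclose.ge
  -- `η₁² ≡ Yt²`
  have hpoly := hg.gt_polynomial hk.1
  have hE : (W.map A.subtype).toAffine.polynomial.evalEval (X : K) (Y : K) =
      Yt ^ 2 - (((X : K) - e₁) ^ 3 + (-(((e₂ : K) - e₁) + ((e₃ : K) - e₁))) * ((X : K) - e₁) ^ 2 +
      ((e₂ : K) - e₁) * ((e₃ : K) - e₁) * ((X : K) - e₁)) := by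
    have h1 := vc_polynomial_eq (lreVC (W.map A.subtype) (e₁ : K)) (W.map A.subtype)
      (vcXinv (lreVC (W.map A.subtype) (e₁ : K)) (X : K)) Yt
    rw [hYt, vcX_vcXinv, vcY_vcYinv, lreVC_uinv, one_pow, one_mul] at h1
    rw [← h1, evalEval_polynomial, hL.a₁, hL.a₂, hL.a₃, hL.a₄, hL.a₆, lre_vcXinv]
    ring
  have hsq : v.Gt (η₁ ^ 2 - Yt ^ 2) 0 := by
    have h1 : η₁ ^ 2 - Yt ^ 2 = -(((X : K) - e₁ - ξ₁) * (ξ₁ ^ 2 + ξ₁ * ((X : K) - e₁) +
        ((X : K) - e₁) ^ 2 + (-(((e₂ : K) - e₁) + ((e₃ : K) - e₁))) * (ξ₁ + ((X : K) - e₁)) +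
        ((e₂ : K) - e₁) * ((e₃ : K) - e₁))) -
        (W.map A.subtype).toAffine.polynomial.evalEval (X : K) (Y : K) := by
      rw [hE, hη₁]
      ring
    rw [h1]
    have h2 : v.Ge (ξ₁ ^ 2 + ξ₁ * ((X : K) - e₁) +
        ((X : K) - e₁) ^ 2 + (-(((e₂ : K) - e₁) + ((e₃ : K) - e₁))) * (ξ₁ + ((X : K) - e₁)) +
        ((e₂ : K) - e₁) * ((e₃ : K) - e₁)) 0 := by
      have t1 : v.Ge (ξ₁ ^ 2) 0 := by simpa using hξ₁.pow 2
      have t2 : v.Ge (ξ₁ * ((X : K) - e₁)) 0 := by simpa using hξ₁.mul hξ₀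
      have t3 : v.Ge (((X : K) - e₁) ^ 2) 0 := by simpa using hξ₀.pow 2
      have t4 : v.Ge ((-(((e₂ : K) - e₁) + ((e₃ : K) - e₁))) * (ξ₁ + ((X : K) - e₁))) 0 := by
        simpa using hgK.ge_a.mul (hξ₁.add hξ₀)
      exact (((t1.add t2).add t3).add t4).add hgK.ge_b
    have h3 : v.Gt (((X : K) - e₁ - ξ₁) * (ξ₁ ^ 2 + ξ₁ * ((X : K) - e₁) +
        ((X : K) - e₁) ^ 2 + (-(((e₂ : K) - e₁) + ((e₃ : K) - e₁))) * (ξ₁ + ((X : K) - e₁)) +
        ((e₂ : K) - e₁) * ((e₃ : K) - e₁))) 0 := by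
      simpa using hclose.mul_ge h2
    exact h3.neg.sub hpoly
  -- choose the sign of `η`
  obtain ⟨η, hη, hηY⟩ : ∃ η : K, η ^ 2 = ξ₁ ^ 3 + (-(((e₂ : K) - e₁) + ((e₃ : K) - e₁))) * ξ₁ ^ 2 +
      ((e₂ : K) - e₁) * ((e₃ : K) - e₁) * ξ₁ ∧ v.Gt (η - Yt) 0 := by
    rcases QVal.le_or_gt (v := v) (η₁ - Yt) 0 with h1 | h1
    · rcases QVal.le_or_gt (v := v) (η₁ + Yt) 0 with h2 | h2
      · exfalso
        have h3 := h1.mul h2
        have : (η₁ - Yt) * (η₁ + Yt) = η₁ ^ 2 - Yt ^ 2 := by ring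
        rw [this, add_zero] at h3
        exact h3.not_gt hsq le_rfl
      · refine ⟨-η₁, by rw [neg_sq, hη₁], ?_⟩
        have : -η₁ - Yt = -(η₁ + Yt) := by ring
        rw [this]
        exact h2.neg
    · exact ⟨η₁, hη₁, h1⟩
  have h₁ := Torsion.isLeg_nonsingular_of_equation hL h2K hb hab hη
  have htors : p • Point.some ξ₁ η h₁ = 0 := (nsmul_eq_zero_iff_preΨ' hL h2K h₁ hodd).mpr hroot
  obtain ⟨h₀, e₀⟩ := vcPointEquiv_symm_some (lreVC (W.map A.subtype) (e₁ : K)) (W.map A.subtype) h₁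
  refine ⟨_, _, h₀, ?_, ?_, ?_⟩
  · rw [← e₀, ← map_nsmul, htors, map_zero]
  · have : vcX (lreVC (W.map A.subtype) (e₁ : K)) ξ₁ - (X : K) = -((X : K) - e₁ - ξ₁) := by
      rw [vcX, lreVC_u]
      simp only [lreVC]
      ring
    rw [this]
    exact hclose.neg
  · have : vcY (lreVC (W.map A.subtype) (e₁ : K)) ξ₁ η - (Y : K) =
        (η - Yt) + (W.map A.subtype).a₁ / 2 * ((X : K) - e₁ - ξ₁) := by
      rw [hYt, lre_vcYinv, vcY, lreVC_u]
      simp only [lreVC]
      ring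
    rw [this]
    have h3 : v.Ge ((W.map A.subtype).a₁ / 2) 0 := by
      have := hgK.a₁.div_is hgK.two
      simpa using this
    have h4 : v.Gt ((W.map A.subtype).a₁ / 2 * ((X : K) - e₁ - ξ₁)) 0 := by
      simpa using h3.mul_gt hclose
    exact hηY.add h4

end

end Fermat.Agent.LR
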