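/-
LR-E, file 6: the roots of the two-torsion polynomial of an integral Weierstrass curve at a good
prime `ℓ ≠ 2`: existence over an algebraically closed field, integrality, unit differences.
Output: `lre_exists_goodA`, the datum `LreGoodA` of `Lift.lean` for `W.map (Int.castRingHom A)`.
-/
import Fermat.Agent.Lib.LR.E.Lift

set_option autoImplicit false
set_option linter.unusedSectionVars false

open WeierstrassCurve Polynomial

namespace Fermat.Agent.LR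

open Fermat.Agent.S05Lib

variable {K : Type*} [Field K] [DecidableEq K]

/-- the roots of the two-torsion polynomial over an algebraically closed field -/
lemma lre_exists_roots [IsAlgClosed K] (h2 : (2 : K) ≠ 0) (W : WeierstrassCurve K) :
    ∃ e₁ e₂ e₃ : K, LreRoots W e₁ e₂ e₃ ∧
      W.Δ = 16 * ((e₁ - e₂) * (e₁ - e₃) * (e₂ - e₃)) ^ 2 := by
  have h4 : (4 : K) ≠ 0 := by
    have : (4 : K) = 2 * 2 := by norm_num
    rw [this]; exact mul_ne_zero h2 h2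
  have ha : W.twoTorsionPolynomial.a ≠ 0 := h4
  have hsp : (W.twoTorsionPolynomial.toPoly.map (RingHom.id K)).Splits := IsAlgClosed.splits _
  obtain ⟨x, y, z, h3⟩ := (Cubic.splits_iff_roots_eq_three ha).mp hsp
  have hb := Cubic.b_eq_three_roots ha h3
  have hc := Cubic.c_eq_three_roots ha h3
  have hd := Cubic.d_eq_three_roots ha h3
  have hdisc := Cubic.discr_eq_prod_three_roots ha h3
  rw [W.twoTorsionPolynomial_discr] at hdisc
  simp only [WeierstrassCurve.twoTorsionPolynomial, RingHom.id_apply] at hb hc hd hdisc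
  refine ⟨x, y, z, ⟨by linear_combination hb, ?_, by linear_combination hd⟩, ?_⟩
  · have : (2 : K) * W.b₄ = 2 * (2 * (x * y + x * z + y * z)) := by linear_combination hc
    exact mul_left_cancel₀ h2 this
  · have h16 : (16 : K) ≠ 0 := by
      have : (16 : K) = 4 * 4 := by norm_num
      rw [this]; exact mul_ne_zero h4 h4
    have : (16 : K) * W.Δ = 16 * (16 * ((x - y) * (x - z) * (y - z)) ^ 2) := by
      linear_combination hdisc
    exact mul_left_cancel₀ h16 this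

lemma LreRoots.root₁ {W : WeierstrassCurve K} {e₁ e₂ e₃ : K} (h : LreRoots W e₁ e₂ e₃) :
    4 * e₁ ^ 3 + W.b₂ * e₁ ^ 2 + 2 * W.b₄ * e₁ + W.b₆ = 0 := by
  rw [h.hb₂, h.hb₄, h.hb₆]; ring

lemma LreRoots.root₂ {W : WeierstrassCurve K} {e₁ e₂ e₃ : K} (h : LreRoots W e₁ e₂ e₃) :
    4 * e₂ ^ 3 + W.b₂ * e₂ ^ 2 + 2 * W.b₄ * e₂ + W.b₆ = 0 := by
  rw [h.hb₂, h.hb₄, h.hb₆]; ring

lemma LreRoots.root₃ {W : WeierstrassCurve K} {e₁ e₂ e₃ : K} (h : LreRoots W e₁ e₂ e₃) :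
    4 * e₃ ^ 3 + W.b₂ * e₃ ^ 2 + 2 * W.b₄ * e₃ + W.b₆ = 0 := by
  rw [h.hb₂, h.hb₄, h.hb₆]; ring

variable {v : QVal K}

lemma lre_is_four (h2 : v.Is (2 : K) 0) : v.Is (4 : K) 0 := by
  have : (4 : K) = 2 * 2 := by norm_num
  rw [this]
  exact h2.mul0 h2

/-- a root of `4 T³ + b₂ T² + 2 b₄ T + b₆` with integral coefficients is integral when `2` is a
unit -/
lemma lre_root_integral (h2 : v.Is (2 : K) 0) {b₂ b₄ b₆ e : K} (h₂ : v.Ge b₂ 0) (h₄ : v.Ge b₄ 0)
    (h₆ : v.Ge b₆ 0) (he : 4 * e ^ 3 + b₂ * e ^ 2 + 2 * b₄ * e + b₆ = 0) : v.Ge e 0 := by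
  rcases QVal.lt_or_ge (v := v) e 0 with hlt | hge
  · exfalso
    have ht : v.ord e < 0 := hlt.2
    have hei : v.Is e (v.ord e) := hlt.is
    have h1 : v.Is (4 * e ^ 3) (3 * v.ord e) := by
      have := (lre_is_four h2).mul (hei.pow 3)
      simpa using this
    have h3 : v.Ge (b₂ * e ^ 2) (2 * v.ord e) := by
      have := h₂.mul (hei.pow 2).ge
      simpa using this
    have h5 : v.Ge (2 * b₄ * e) (2 * v.ord e) := by
      have := (h2.ge.mul h₄).mul hei.ge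
      exact this.mono (by linarith)
    have h7 : v.Ge b₆ (2 * v.ord e) := h₆.mono (by linarith)
    have h8 : v.Ge (-(b₂ * e ^ 2 + 2 * b₄ * e + b₆)) (2 * v.ord e) := ((h3.add h5).add h7).neg
    have h9 : 4 * e ^ 3 = -(b₂ * e ^ 2 + 2 * b₄ * e + b₆) := by linear_combination he
    rw [← h9] at h8
    exact h1.not_ge h8 (by linarith)
  · exact hge

/-- unit discriminant forces unit root differences -/
lemma lre_units_of_Δ (h2 : v.Is (2 : K) 0) {e₁ e₂ e₃ Δ : K} (hΔ : v.Is Δ 0)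
    (h : Δ = 16 * ((e₁ - e₂) * (e₁ - e₃) * (e₂ - e₃)) ^ 2)
    (g₁ : v.Ge e₁ 0) (g₂ : v.Ge e₂ 0) (g₃ : v.Ge e₃ 0) :
    v.Is (e₁ - e₂) 0 ∧ v.Is (e₁ - e₃) 0 ∧ v.Is (e₂ - e₃) 0 := by
  have h16 : v.Is (16 : K) 0 := by
    have : (16 : K) = 4 * 4 := by norm_num
    rw [this]
    exact (lre_is_four h2).mul0 (lre_is_four h2)
  have hne : (e₁ - e₂) * (e₁ - e₃) * (e₂ - e₃) ≠ 0 := by
    intro h0
    apply hΔ.1
    rw [h, h0]; ring
  have n12 : e₁ - e₂ ≠ 0 := fun h0 => hne (by rw [h0]; ring)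
  have n13 : e₁ - e₃ ≠ 0 := fun h0 => hne (by rw [h0]; ring)
  have n23 : e₂ - e₃ ≠ 0 := fun h0 => hne (by rw [h0]; ring)
  have i12 := QVal.is_ord (v := v) n12
  have i13 := QVal.is_ord (v := v) n13
  have i23 := QVal.is_ord (v := v) n23
  have p12 : 0 ≤ v.ord (e₁ - e₂) := (g₁.sub g₂).resolve_left n12
  have p13 : 0 ≤ v.ord (e₁ - e₃) := (g₁.sub g₃).resolve_left n13
  have p23 : 0 ≤ v.ord (e₂ - e₃) := (g₂.sub g₃).resolve_left n23
  have hprod := h16.mul (((i12.mul i13).mul i23).pow 2)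
  rw [← h] at hprod
  have hsum := hΔ.unique hprod
  push_cast at hsum
  refine ⟨⟨n12, ?_⟩, ⟨n13, ?_⟩, ⟨n23, ?_⟩⟩ <;> linarith

section Integral

variable [IsAlgClosed K] {A : ValuationSubring K} (hv : LreVal A v)
include hv

/-- **Good reduction datum** at a prime `ℓ ≠ 2` not dividing the discriminant. -/
theorem lre_exists_goodA (W : WeierstrassCurve ℤ) {l : ℕ} (hl : l.Prime) (hA : A.LiesOverPrime l)
    (hl2 : l ≠ 2) (hΔ : ¬ (l : ℤ) ∣ W.Δ) :
    ∃ e₁ e₂ e₃ : A, LreGoodA A v (W.map (Int.castRingHom A)) e₁ e₂ e₃ := by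
  have h2 : v.Is (2 : K) 0 := by
    have : ¬ (l : ℤ) ∣ (2 : ℤ) := by
      intro h
      have h' : l ∣ 2 := by exact_mod_cast h
      exact hl2 ((Nat.prime_dvd_prime_iff_eq hl Nat.prime_two).mp h')
    have := hv.is_intCast hl hA this
    exact_mod_cast this
  obtain ⟨e₁, e₂, e₃, hr, hdisc⟩ := lre_exists_roots h2.1 (W.map (Int.castRingHom K))
  have hb₂ : v.Ge (W.map (Int.castRingHom K)).b₂ 0 := by
    rw [WeierstrassCurve.map_b₂]; exact hv.ge_intCast _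
  have hb₄ : v.Ge (W.map (Int.castRingHom K)).b₄ 0 := by
    rw [WeierstrassCurve.map_b₄]; exact hv.ge_intCast _
  have hb₆ : v.Ge (W.map (Int.castRingHom K)).b₆ 0 := by
    rw [WeierstrassCurve.map_b₆]; exact hv.ge_intCast _
  have g₁ := lre_root_integral h2 hb₂ hb₄ hb₆ hr.root₁
  have g₂ := lre_root_integral h2 hb₂ hb₄ hb₆ hr.root₂
  have g₃ := lre_root_integral h2 hb₂ hb₄ hb₆ hr.root₃
  have hΔK : v.Is (W.map (Int.castRingHom K)).Δ 0 := by
    rw [WeierstrassCurve.map_Δ]; exact hv.is_intCast hl hA hΔ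
  obtain ⟨i12, i13, i23⟩ := lre_units_of_Δ h2 hΔK hdisc g₁ g₂ g₃
  have c4 : ((4 : A) : K) = 4 := rfl
  have c2 : ((2 : A) : K) = 2 := rfl
  refine ⟨⟨e₁, hv.mem_of_ge g₁⟩, ⟨e₂, hv.mem_of_ge g₂⟩, ⟨e₃, hv.mem_of_ge g₃⟩,
    ⟨hv, ⟨?_, ?_, ?_⟩, h2, i12, i13, i23⟩⟩
  · apply Subtype.ext
    have h := hr.hb₂
    rw [WeierstrassCurve.map_b₂] at h ⊢
    push_cast
    rw [c4]
    simpa using h
  · apply Subtype.ext
    have h := hr.hb₄
    rw [WeierstrassCurve.map_b₄] at h ⊢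
    push_cast
    rw [c2]
    simpa using h
  · apply Subtype.ext
    have h := hr.hb₆
    rw [WeierstrassCurve.map_b₆] at h ⊢
    push_cast
    rw [c4]
    simpa using h

end Integral

end Fermat.Agent.LR
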