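/-
LR-E, file 8: `|E[n](ℚ̄)| = n²` for every elliptic curve over `ℚ` (general Weierstrass form), and
`E[p]` is a plane over `𝔽_p`.  Reduction to the Legendre case `S13Lib.Torsion.natCard_torsion` via
the change of variables `lreVC` over `ℚ̄`.
-/
import Fermat.Agent.Lib.LR.E.Roots
import Fermat.Agent.Lib.S13.Torsion.Frey

set_option autoImplicit false
set_option linter.unusedSectionVars false

open WeierstrassCurve WeierstrassCurve.Affine
open scoped WeierstrassCurve.Affine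

namespace Fermat.Agent.LR

open Fermat.Agent.S05Lib Fermat.Agent.X015 Fermat.Agent.S13Lib.Torsion

/-- the number of `n`-torsion points of a Weierstrass curve with nonzero discriminant over an
algebraically closed field of characteristic zero -/
theorem lre_natCard_torsion {K : Type*} [Field K] [DecidableEq K] [IsAlgClosed K] [CharZero K]
    (W : WeierstrassCurve K) (hΔ : W.Δ ≠ 0) {n : ℕ} (hn : 0 < n) :
    Nat.card {P : W.toAffine.Point // n • P = 0} = n ^ 2 := by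
  have h2 : (2 : K) ≠ 0 := two_ne_zero
  obtain ⟨e₁, e₂, e₃, hr, hdisc⟩ := lre_exists_roots h2 W
  have hne : (e₁ - e₂) * (e₁ - e₃) * (e₂ - e₃) ≠ 0 := by
    intro h0
    apply hΔ
    rw [hdisc, h0]; ring
  have n12 : e₁ - e₂ ≠ 0 := fun h0 => hne (by rw [h0]; ring)
  have n13 : e₁ - e₃ ≠ 0 := fun h0 => hne (by rw [h0]; ring)
  have n23 : e₂ - e₃ ≠ 0 := fun h0 => hne (by rw [h0]; ring)
  have hL := lre_isLeg h2 hr
  have hb : (e₂ - e₁) * (e₃ - e₁) ≠ 0 := by
    have : (e₂ - e₁) * (e₃ - e₁) = (e₁ - e₂) * (e₁ - e₃) := by ring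
    rw [this]
    exact mul_ne_zero n12 n13
  have hab : (-((e₂ - e₁) + (e₃ - e₁))) ^ 2 - 4 * ((e₂ - e₁) * (e₃ - e₁)) ≠ 0 := by
    have : (-((e₂ - e₁) + (e₃ - e₁))) ^ 2 - 4 * ((e₂ - e₁) * (e₃ - e₁)) = (e₂ - e₃) ^ 2 := by ring
    rw [this]
    exact pow_ne_zero 2 n23
  rw [← natCard_torsion hL hb hab hn]
  refine Nat.card_congr (Equiv.subtypeEquiv (vcPointEquiv (lreVC W e₁) W).toEquiv fun P => ?_)
  change _ ↔ n • (vcPointEquiv (lreVC W e₁) W) P = 0
  rw [← map_nsmul]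
  exact (map_eq_zero_iff _ (vcPointEquiv (lreVC W e₁) W).injective).symm

local notation "Qb" => AlgebraicClosure ℚ

/-- **`|E[n](ℚ̄)| = n²`** -/
theorem lre_natCard_torsionBy (E : WeierstrassCurve ℚ) (hΔ : E.Δ ≠ 0) {n : ℕ} (hn : 0 < n) :
    Nat.card (Submodule.torsionBy ℤ (E.toAffine⁄Qb).Point n) = n ^ 2 := by
  rw [natCard_torsionBy_eq]
  refine lre_natCard_torsion _ ?_ hn
  show (E.map (algebraMap ℚ Qb)).Δ ≠ 0
  rw [WeierstrassCurve.map_Δ]
  exact (map_ne_zero _).mpr hΔ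

/-- **`E[p]` is a plane** -/
theorem lre_finrank_torsionBy (E : WeierstrassCurve ℚ) (hΔ : E.Δ ≠ 0) {p : ℕ} (hp : p.Prime) :
    Module.finrank (ZMod p) (Submodule.torsionBy ℤ (E.toAffine⁄Qb).Point p) = 2 := by
  have : Fact p.Prime := ⟨hp⟩
  have hcard := lre_natCard_torsionBy E hΔ hp.pos
  have : Finite (Submodule.torsionBy ℤ (E.toAffine⁄Qb).Point p) :=
    Nat.finite_of_card_ne_zero (by rw [hcard]; exact pow_ne_zero 2 hp.ne_zero)
  have h := Module.natCard_eq_pow_finrank (K := ZMod p)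
    (V := Submodule.torsionBy ℤ (E.toAffine⁄Qb).Point p)
  rw [hcard, Nat.card_zmod] at h
  exact (Nat.pow_right_injective hp.two_le h).symm

end Fermat.Agent.LR
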