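/-
LR-E, file 7: a Frobenius element at a good prime `ℓ ∉ {2, p}` fixes a nonzero `p`-torsion point
of `E(ℚ̄)` as soon as `p` divides the number of `𝔽_ℓ`-points of the reduction.

Cauchy gives a point `Q` of order `p` in `W̃(𝔽_ℓ)`; `Lift.lean` lifts it to a `p`-torsion point
`P₀` over `ℚ̄` congruent to integer lifts of the coordinates of `Q`; a Frobenius `φ` maps `P₀` to a
`p`-torsion point congruent to `P₀` (Fermat's little theorem), hence to `P₀` itself (`Close.lean`).
-/
import Fermat.Agent.Lib.LR.E.Roots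
import Fermat.Agent.Lib.S05.QValQbar
import Fermat.Agent.Lib.FrobDensity.Main
import Fermat.Prelude.Def_FLTPrelim_Modularity
import Fermat.Prelude.Def_EllipticCurve_FrobeniusTrace

set_option autoImplicit false
set_option linter.unusedSectionVars false
set_option linter.style.haveILetI false

open WeierstrassCurve WeierstrassCurve.Affine
open scoped WeierstrassCurve.Affine

namespace Fermat.Agent.LR

open Fermat.Agent.S05Lib Fermat.Agent.X015

local notation "Qb" => AlgebraicClosure ℚ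

/-- transport of a torsion point along equalities of curves and coordinates -/
lemma lre_point_transport {F : Type*} [Field F] [DecidableEq F] {W₁ W₂ : WeierstrassCurve F}
    (h : W₁ = W₂) {x y x' y' : F} (hx : x = x') (hy : y = y')
    (h₁ : W₁.toAffine.Nonsingular x y) {n : ℕ} (hn : n • Point.some x y h₁ = 0) :
    ∃ h₂ : W₂.toAffine.Nonsingular x' y', n • Point.some x' y' h₂ = 0 := by
  subst h hx hy
  exact ⟨h₁, hn⟩

lemma lre_curve_eq_residue (W : WeierstrassCurve ℤ) (A : ValuationSubring Qb) :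
    (W.map (Int.castRingHom A)).map (IsLocalRing.residue A) =
      (W.toAffine⁄(IsLocalRing.ResidueField A)) := by
  rw [WeierstrassCurve.map_map]
  rfl

lemma lre_curve_eq_qbar (W : WeierstrassCurve ℤ) (A : ValuationSubring Qb) :
    (W.map (Int.castRingHom A)).map A.subtype = ((W.map (Int.castRingHom ℚ)).toAffine⁄Qb) := by
  show _ = (W.map (Int.castRingHom ℚ)).map _
  rw [WeierstrassCurve.map_map, WeierstrassCurve.map_map]
  congr 1

/-- the valuation attached to a valuation subring of `ℚ̄` over `ℓ` -/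
lemma lre_exists_val (A : ValuationSubring Qb) {l : ℕ} (hl : l.Prime) (hA : A.LiesOverPrime l) :
    ∃ v : QVal Qb, LreVal A v := by
  obtain ⟨v, hmem, -⟩ := exists_qval_of_liesOver A hl hA
  exact ⟨v, ⟨fun x => hmem x⟩⟩

/-- a Frobenius element is congruent to the identity at elements that are congruent to
integers -/
lemma lre_frobenius_close {A : ValuationSubring Qb} {v : QVal Qb} (hv : LreVal A v) {l : ℕ}
    (hl : l.Prime) (hA : A.LiesOverPrime l) {φ : Qb ≃ₐ[ℚ] Qb} (hφ : A.IsFrobeniusAt φ l)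
    {x : Qb} {n : ℕ} (hx : v.Gt (x - (n : Qb)) 0) : v.Gt (φ x - x) 0 := by
  have hxA : x ∈ A := by
    have : x = (x - (n : Qb)) + ((n : ℤ) : Qb) := by push_cast; ring
    rw [this]
    exact hv.mem_of_ge (hx.ge.add (hv.ge_intCast n))
  have h1 : v.Gt (φ x - x ^ l) 0 :=
    (hv.gt_iff _).mpr (Fermat.Agent.FrobDensity.valuation_frobenius_sub_pow_lt_one hφ hxA)
  haveI : Fact l.Prime := ⟨hl⟩
  haveI : CharP (IsLocalRing.ResidueField A) l := hv.charP_residue hl hA
  letI : Algebra (ZMod l) (IsLocalRing.ResidueField A) := ZMod.algebra _ l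
  have h2 : v.Gt (x ^ l - x) 0 := by
    have hr : IsLocalRing.residue A (⟨x, hxA⟩ : A) = ((n : ℕ) : IsLocalRing.ResidueField A) := by
      rw [← map_natCast (IsLocalRing.residue A) n, ← sub_eq_zero, ← map_sub]
      apply hv.residue_eq_zero_of_gt
      exact hx
    have h3 : IsLocalRing.residue A ((⟨x, hxA⟩ : A) ^ l - ⟨x, hxA⟩) = 0 := by
      rw [map_sub, map_pow, hr, ← map_natCast (algebraMap (ZMod l) (IsLocalRing.ResidueField A)) n,
        ← map_pow, ZMod.pow_card, sub_self]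
    exact hv.gt_of_residue_eq_zero h3
  have : φ x - x = (φ x - x ^ l) + (x ^ l - x) := by ring
  rw [this]
  exact h1.add h2

/-- **Frobenius fixes a torsion point.** -/
theorem lre_exists_fixed_point (W : WeierstrassCurve ℤ) {l p : ℕ} (hl : l.Prime) (hp : p.Prime)
    (hl2 : l ≠ 2) (hp2 : p ≠ 2) (hlp : l ≠ p) (hΔ : ¬ (l : ℤ) ∣ W.Δ)
    (hcard : p ∣ (W.reductionMod l).card)
    (A : ValuationSubring Qb) (hA : A.LiesOverPrime l) (φ : Qb ≃ₐ[ℚ] Qb)
    (hφ : A.IsFrobeniusAt φ l) :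
    ∃ P : ((W.map (Int.castRingHom ℚ)).toAffine⁄Qb).Point, P ≠ 0 ∧ p • P = 0 ∧ φ • P = P := by
  classical
  haveI : Fact l.Prime := ⟨hl⟩
  haveI : Fact p.Prime := ⟨hp⟩
  haveI : NeZero l := ⟨hl.ne_zero⟩
  obtain ⟨v, hv⟩ := lre_exists_val A hl hA
  obtain ⟨e₁, e₂, e₃, hg⟩ := lre_exists_goodA hv W hl hA hl2 hΔ
  haveI : CharP (IsLocalRing.ResidueField A) l := hv.charP_residue hl hA
  letI : Algebra (ZMod l) (IsLocalRing.ResidueField A) := ZMod.algebra _ l
  have hpu : v.Is ((p : ℕ) : Qb) 0 := by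
    have : ¬ (l : ℤ) ∣ (p : ℤ) := by
      intro h
      have h' : l ∣ p := by exact_mod_cast h
      exact hlp ((Nat.prime_dvd_prime_iff_eq hl hp).mp h')
    have := hv.is_intCast hl hA this
    exact_mod_cast this
  have hodd : Odd p := hp.odd_of_ne_two hp2
  -- Cauchy
  obtain ⟨Q, hQ⟩ := exists_prime_addOrderOf_dvd_card' (G := (W.toAffine⁄(ZMod l)).Point) p hcard
  have hQp : p • Q = 0 := by rw [← hQ]; exact addOrderOf_nsmul_eq_zero Q
  rcases Q with _ | ⟨Xb, Yb, hXY⟩
  · exfalso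
    have h0 : addOrderOf (0 : (W.toAffine⁄(ZMod l)).Point) = p := hQ
    rw [addOrderOf_zero] at h0
    exact hp.one_lt.ne h0
  -- move to the residue field
  let f₀ : ZMod l →ₐ[ℤ] IsLocalRing.ResidueField A :=
    (algebraMap (ZMod l) (IsLocalRing.ResidueField A)).toIntAlgHom
  have hQ' : p • Point.map (W' := W.toAffine) f₀ (Point.some Xb Yb hXY) = 0 := by
    rw [← map_nsmul, hQp, map_zero]
  rw [Point.map_some] at hQ'
  have hx : f₀ Xb = IsLocalRing.residue A ((Xb.val : ℕ) : A) := by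
    rw [map_natCast]
    conv_lhs => rw [← ZMod.natCast_zmod_val Xb]
    exact map_natCast f₀ _
  have hy : f₀ Yb = IsLocalRing.residue A ((Yb.val : ℕ) : A) := by
    rw [map_natCast]
    conv_lhs => rw [← ZMod.natCast_zmod_val Yb]
    exact map_natCast f₀ _
  obtain ⟨hk, hPk⟩ := lre_point_transport (lre_curve_eq_residue W A).symm hx hy _ hQ'
  -- lift
  obtain ⟨x₀, y₀, h₀, htors, hcx, hcy⟩ := hg.exists_lift hodd hpu hk hPk
  obtain ⟨h₀', htors'⟩ := lre_point_transport (lre_curve_eq_qbar W A) rfl rfl h₀ htors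
  have hgK : LreGood v ((W.map (Int.castRingHom ℚ)).toAffine⁄Qb) (e₁ : Qb) (e₂ : Qb) (e₃ : Qb) :=
    lre_curve_eq_qbar W A ▸ hg.good
  -- the Frobenius image
  have hφ₀ : ((W.map (Int.castRingHom ℚ)).toAffine⁄Qb).Nonsingular (φ x₀) (φ y₀) :=
    ((W.map (Int.castRingHom ℚ)).toAffine.baseChange_nonsingular φ.toAlgHom.injective ..).mpr h₀'
  have hsm : φ • (Point.some x₀ y₀ h₀' : ((W.map (Int.castRingHom ℚ)).toAffine⁄Qb).Point) =
      Point.some (φ x₀) (φ y₀) hφ₀ := rfl
  have htorsφ : p • (Point.some (φ x₀) (φ y₀) hφ₀ :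
      ((W.map (Int.castRingHom ℚ)).toAffine⁄Qb).Point) = 0 := by
    rw [← hsm, Point.algEquiv_smul_def, ← map_nsmul, htors', map_zero]
  have hcx' : v.Gt (x₀ - ((Xb.val : ℕ) : Qb)) 0 := by
    have : (((Xb.val : ℕ) : A) : Qb) = ((Xb.val : ℕ) : Qb) := rfl
    rwa [this] at hcx
  have hcy' : v.Gt (y₀ - ((Yb.val : ℕ) : Qb)) 0 := by
    have : (((Yb.val : ℕ) : A) : Qb) = ((Yb.val : ℕ) : Qb) := rfl
    rwa [this] at hcy
  have hclx := lre_frobenius_close hv hl hA hφ hcx'
  have hcly := lre_frobenius_close hv hl hA hφ hcy'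
  obtain ⟨ex, ey⟩ := lre_eq_of_close hgK hpu h₀' hφ₀ htors' htorsφ hclx hcly
  refine ⟨Point.some x₀ y₀ h₀', Point.some_ne_zero _, htors', ?_⟩
  rw [hsm]
  simp only [ex, ey]

end Fermat.Agent.LR
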