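/-
LR-E (level raising, non-Eisenstein package), file 1: two-dimensional group theory.

`lre_exists_stable_line`: a group of automorphisms of a two-dimensional vector space in which
every element fixes a nonzero vector stabilises a line.

Proof: let `N = G ∩ SL`.  Elements of `N` are unipotent; two nontrivial unipotent elements with
different fixed lines have a product without eigenvalue `1`, so all nontrivial elements of `N`
share one fixed line, which is `G`-stable as `N` is normal.  If `N = 1` then `det` is injective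
on `G`, `G` is abelian, and the fixed line of any nontrivial element is `G`-stable.
-/
import Mathlib

set_option autoImplicit false

open Module

namespace Fermat.Agent.LR

variable {F V : Type*} [Field F] [AddCommGroup V] [Module F V]

lemma lre_linearIndependent_pair {v w : V} (hv : v ≠ 0) (hw : ∀ c : F, w ≠ c • v) :
    LinearIndependent F ![v, w] :=
  (LinearIndependent.pair_iff' hv).mpr fun a h => hw a h.symm

/-- the basis `(v, w)` of a two-dimensional space -/
noncomputable def lreBasis (h2 : finrank F V = 2) {v w : V} (hv : v ≠ 0)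
    (hw : ∀ c : F, w ≠ c • v) : Basis (Fin 2) F V :=
  basisOfLinearIndependentOfCardEqFinrank (lre_linearIndependent_pair hv hw)
    (by rw [h2]; rfl)

lemma lreBasis_zero (h2 : finrank F V = 2) {v w : V} (hv : v ≠ 0) (hw : ∀ c : F, w ≠ c • v) :
    lreBasis h2 hv hw 0 = v := by
  unfold lreBasis
  rw [coe_basisOfLinearIndependentOfCardEqFinrank]
  rfl

lemma lreBasis_one (h2 : finrank F V = 2) {v w : V} (hv : v ≠ 0) (hw : ∀ c : F, w ≠ c • v) :
    lreBasis h2 hv hw 1 = w := by
  unfold lreBasis
  rw [coe_basisOfLinearIndependentOfCardEqFinrank]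
  rfl

lemma lre_exists_coords (h2 : finrank F V = 2) {v w : V} (hv : v ≠ 0)
    (hw : ∀ c : F, w ≠ c • v) (x : V) : ∃ a b : F, x = a • v + b • w := by
  refine ⟨(lreBasis h2 hv hw).repr x 0, (lreBasis h2 hv hw).repr x 1, ?_⟩
  have h := (lreBasis h2 hv hw).sum_repr x
  rw [Fin.sum_univ_two, lreBasis_zero, lreBasis_one] at h
  exact h.symm

lemma lre_coords_unique {v w : V} (hv : v ≠ 0) (hw : ∀ c : F, w ≠ c • v) {a b a' b' : F}
    (h : a • v + b • w = a' • v + b' • w) : a = a' ∧ b = b' := by
  have hli := lre_linearIndependent_pair hv hw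
  rw [LinearIndependent.pair_iff] at hli
  have h0 : (a - a') • v + (b - b') • w = 0 := by
    rw [sub_smul, sub_smul]
    have : a • v - a' • v + (b • w - b' • w) = (a • v + b • w) - (a' • v + b' • w) := by abel
    rw [this, h, sub_self]
  obtain ⟨h1, h2⟩ := hli _ _ h0
  exact ⟨sub_eq_zero.mp h1, sub_eq_zero.mp h2⟩

/-- an automorphism fixing two independent vectors of a plane is the identity -/
lemma lre_eq_one_of_fix (h2 : finrank F V = 2) {v w : V} (hv : v ≠ 0) (hw : ∀ c : F, w ≠ c • v)
    {g : V ≃ₗ[F] V} (hgv : g v = v) (hgw : g w = w) : g = 1 := by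
  ext x
  obtain ⟨a, b, rfl⟩ := lre_exists_coords h2 hv hw x
  rw [map_add, map_smul, map_smul, hgv, hgw]
  rfl

/-- an automorphism of determinant one fixing `v` is a transvection along `v` -/
lemma lre_unipotent_form (h2 : finrank F V = 2) {v w : V} (hv : v ≠ 0) (hw : ∀ c : F, w ≠ c • v)
    {g : V ≃ₗ[F] V} (hgv : g v = v) (hdet : LinearEquiv.det g = 1) :
    ∃ a : F, g w = a • v + w := by
  obtain ⟨a, d, had⟩ := lre_exists_coords h2 hv hw (g w)
  refine ⟨a, ?_⟩
  obtain ⟨b, hb0, hb1⟩ : ∃ b : Basis (Fin 2) F V, b 0 = v ∧ b 1 = w :=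
    ⟨lreBasis h2 hv hw, lreBasis_zero h2 hv hw, lreBasis_one h2 hv hw⟩
  have hd : LinearMap.det (g : V →ₗ[F] V) = 1 := by
    rw [← LinearEquiv.coe_det, hdet]
    rfl
  rw [← LinearMap.det_toMatrix b, Matrix.det_fin_two] at hd
  simp only [LinearMap.toMatrix_apply, LinearEquiv.coe_coe] at hd
  rw [hb0, hb1, hgv, had] at hd
  have e0 : b.repr v = Finsupp.single 0 1 := by
    have := b.repr_self 0
    rwa [hb0] at this
  have e1 : b.repr w = Finsupp.single 1 1 := by
    have := b.repr_self 1
    rwa [hb1] at this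
  rw [map_add, map_smul, map_smul, e0, e1] at hd
  simp at hd
  rw [had, hd, one_smul]

variable (G : Subgroup (V ≃ₗ[F] V))

/-- two nontrivial unipotent elements whose product has an eigenvalue one share their fixed
line -/
lemma lre_common_line (h2 : finrank F V = 2) {u u' : V ≃ₗ[F] V} {v v' : V} (hv : v ≠ 0)
    (hv' : v' ≠ 0) (hu : u v = v) (hu' : u' v' = v') (hu1 : u ≠ 1) (hu'1 : u' ≠ 1)
    (hdu : LinearEquiv.det u = 1) (hdu' : LinearEquiv.det u' = 1)
    (hfix : ∃ x : V, x ≠ 0 ∧ (u * u') x = x) : ∃ c : F, v' = c • v := by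
  by_contra hcon
  push Not at hcon
  have hcon' : ∀ c : F, v ≠ c • v' := by
    intro c hc
    have hc0 : c ≠ 0 := by
      rintro rfl
      rw [zero_smul] at hc
      exact hv hc
    apply hcon c⁻¹
    rw [hc, smul_smul, inv_mul_cancel₀ hc0, one_smul]
  obtain ⟨a, ha⟩ := lre_unipotent_form h2 hv hcon hu hdu
  obtain ⟨c, hc⟩ := lre_unipotent_form h2 hv' hcon' hu' hdu'
  have ha0 : a ≠ 0 := by
    rintro rfl
    rw [zero_smul, zero_add] at ha
    exact hu1 (lre_eq_one_of_fix h2 hv hcon hu ha)
  have hc0 : c ≠ 0 := by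
    rintro rfl
    rw [zero_smul, zero_add] at hc
    exact hu'1 (lre_eq_one_of_fix h2 hv' hcon' hu' hc)
  obtain ⟨x, hx0, hx⟩ := hfix
  obtain ⟨s, t, rfl⟩ := lre_exists_coords h2 hv hcon x
  rw [LinearEquiv.mul_apply, map_add, map_smul, map_smul, hc, hu', map_add, map_smul, map_smul,
    map_add, map_smul, hu, ha] at hx
  have hx' : (s + s * c * a + t * a) • v + (s * c + t) • v' = s • v + t • v' := by
    rw [← hx]
    simp only [smul_add, smul_smul, add_smul, mul_assoc]
    abel
  obtain ⟨h1, h3⟩ := lre_coords_unique hv hcon hx'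
  have hs : s = 0 := by
    have : s * c = 0 := by linear_combination h3
    rcases mul_eq_zero.mp this with h | h
    · exact h
    · exact absurd h hc0
  have ht : t = 0 := by
    rw [hs] at h1
    have : t * a = 0 := by linear_combination h1
    rcases mul_eq_zero.mp this with h | h
    · exact h
    · exact absurd h ha0
  apply hx0
  rw [hs, ht, zero_smul, zero_smul, add_zero]

/-- **Stable line.** A group of automorphisms of a plane all of whose elements have a nonzero
fixed vector stabilises a line. -/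
theorem lre_exists_stable_line (h2 : finrank F V = 2)
    (hfix : ∀ g ∈ G, ∃ v : V, v ≠ 0 ∧ g v = v) :
    ∃ v : V, v ≠ 0 ∧ ∀ g ∈ G, ∃ c : F, g v = c • v := by
  by_cases hN : ∃ u ∈ G, LinearEquiv.det u = 1 ∧ u ≠ 1
  · -- case A: a nontrivial unipotent element
    obtain ⟨u, huG, hdu, hu1⟩ := hN
    obtain ⟨v, hv, huv⟩ := hfix u huG
    refine ⟨v, hv, fun g hg => ?_⟩
    set u' := g * u * g⁻¹ with hu'
    have hu'G : u' ∈ G := G.mul_mem (G.mul_mem hg huG) (G.inv_mem hg)
    have hdu' : LinearEquiv.det u' = 1 := by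
      rw [hu', map_mul, map_mul, hdu, mul_one, map_inv, mul_inv_cancel]
    have hu'1 : u' ≠ 1 := by
      intro h
      apply hu1
      have : u = g⁻¹ * u' * g := by rw [hu']; group
      rw [this, h]; group
    have hgv0 : g v ≠ 0 := fun h => hv (g.map_eq_zero_iff.mp h)
    have hu'v : u' (g v) = g v := by
      rw [hu', LinearEquiv.mul_apply, LinearEquiv.mul_apply]
      have : g⁻¹ (g v) = v := by
        rw [← LinearEquiv.mul_apply, inv_mul_cancel]; rfl
      rw [this, huv]
    exact lre_common_line h2 hv hgv0 huv hu'v hu1 hu'1 hdu hdu'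
      (hfix _ (G.mul_mem huG hu'G))
  · -- case B: the determinant is injective on `G`
    push Not at hN
    have hcomm : ∀ g ∈ G, ∀ h ∈ G, g * h = h * g := by
      intro g hg h hh
      have h1 : g * h * g⁻¹ * h⁻¹ = 1 := by
        apply hN _ (G.mul_mem (G.mul_mem (G.mul_mem hg hh) (G.inv_mem hg)) (G.inv_mem hh))
        rw [map_mul, map_mul, map_mul, map_inv, map_inv]
        rw [mul_comm (LinearEquiv.det g), mul_assoc, mul_assoc, mul_comm (LinearEquiv.det g),
          ← mul_assoc, ← mul_assoc]
        simp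
      calc g * h = (g * h * g⁻¹ * h⁻¹) * (h * g) := by group
        _ = h * g := by rw [h1, one_mul]
    by_cases hG : ∃ g ∈ G, g ≠ 1
    · obtain ⟨g, hg, hg1⟩ := hG
      obtain ⟨v, hv, hgv⟩ := hfix g hg
      refine ⟨v, hv, fun h hh => ?_⟩
      by_contra hcon
      push Not at hcon
      apply hg1
      refine lre_eq_one_of_fix h2 hv hcon hgv ?_
      rw [← LinearEquiv.mul_apply, hcomm g hg h hh, LinearEquiv.mul_apply, hgv]
    · push Not at hG
      have : Nontrivial V := by
        apply Module.nontrivial_of_finrank_pos (R := F)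
        rw [h2]; norm_num
      obtain ⟨v, hv⟩ := exists_ne (0 : V)
      refine ⟨v, hv, fun g hg => ⟨1, ?_⟩⟩
      rw [hG g hg, one_smul]
      rfl

end Fermat.Agent.LR
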