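/-
LR-E, file 9 (main): the non-Eisenstein property of an irreducible `E[p]`.

`lre_exists_prime_not_eisenstein`: for an elliptic curve `E / ℚ` with integral model `W`, an odd
prime `p` with `E[p]` irreducible, and a finite set `T` of primes, there is a prime `ℓ ∉ T` of good
reduction with `a_ℓ(E) ≢ ℓ + 1 (mod p)`.

Otherwise `p ∣ #W̃(𝔽_ℓ)` for almost all `ℓ`, every Frobenius fixes a nonzero point of `E[p]`
(`Frob.lean`), hence so does every `σ ∈ G_ℚ` (Frobenius density, `FrobDensity.Main`), and `E[p]`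
contains a Galois-stable line (`Group.lean`, `Count.lean`).
-/
import Fermat.Agent.Lib.LR.E.Group
import Fermat.Agent.Lib.LR.E.Frob
import Fermat.Agent.Lib.LR.E.Count
import Fermat.Agent.Lib.S13.Glue
import Fermat.Prelude.Def_FreyPackage_GaloisRep

set_option autoImplicit false
set_option linter.unusedSectionVars false
set_option linter.style.haveILetI false

open WeierstrassCurve WeierstrassCurve.Affine WeierstrassCurve.Affine.Point
open scoped WeierstrassCurve.Affine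

namespace Fermat.Agent.LR

open Fermat.Agent.S13Lib

local notation "Qb" => AlgebraicClosure ℚ
local notation "GQ" => (AlgebraicClosure ℚ ≃ₐ[ℚ] AlgebraicClosure ℚ)

/-- the action on finite torsion factors through a finite normal extension -/
lemma lre_exists_level (E : WeierstrassCurve ℚ) (n : ℕ) [Finite (Tors E n)] :
    ∃ L : IntermediateField ℚ Qb, FiniteDimensional ℚ L ∧ Normal ℚ L ∧
      ∀ σ : GQ, (∀ x ∈ L, σ x = x) → ∀ P : Tors E n, σ • P = P := by
  obtain ⟨U, hU, h⟩ := exists_isOpen_forall_smul_eq (E := E) (n := n)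
  obtain ⟨L₀, hL₀, hL₀U⟩ := (krullTopology_mem_nhds_one_iff ℚ Qb _).mp (hU.mem_nhds U.one_mem)
  haveI := hL₀
  haveI := Fermat.Agent.Lib.Helper6.isGalois_rat_algebraicClosure
  refine ⟨IntermediateField.normalClosure ℚ ↥L₀ Qb,
    normalClosure.is_finiteDimensional ℚ _ Qb, normalClosure.normal ℚ _ Qb, fun σ hσ P => ?_⟩
  apply h σ
  apply hL₀U
  rw [SetLike.mem_coe, IntermediateField.mem_fixingSubgroup_iff]
  intro x hx
  exact hσ x (IntermediateField.le_normalClosure L₀ hx)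

/-- two elements of `G_ℚ` that agree on the level act in the same way on torsion -/
lemma lre_smul_eq_of_agree {E : WeierstrassCurve ℚ} {n : ℕ} {L : IntermediateField ℚ Qb}
    (hL : ∀ σ : GQ, (∀ x ∈ L, σ x = x) → ∀ P : Tors E n, σ • P = P) {τ τ' : GQ}
    (h : ∀ x ∈ L, τ x = τ' x) (P : Tors E n) : τ • P = τ' • P := by
  have h1 : (τ'⁻¹ * τ) • P = P := by
    apply hL
    intro x hx
    rw [AlgEquiv.mul_apply, h x hx]
    exact τ'.symm_apply_apply x
  rw [mul_smul] at h1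
  rw [← h1, smul_inv_smul, h1]

/-- powers of an element fixing a point fix the point -/
lemma lre_pow_smul_eq {G X : Type*} [Group G] [MulAction G X] {g : G} {x : X} (h : g • x = x)
    (b : ℕ) : g ^ b • x = x := by
  induction b with
  | zero => rw [pow_zero, one_smul]
  | succ b ih => rw [pow_succ, mul_smul, h, ih]

/-- the number of points of the reduction in terms of `a_ℓ` -/
lemma lre_card_eq (W : WeierstrassCurve ℤ) (l : ℕ) :
    ((W.reductionMod l).card : ℤ) = (l : ℤ) + 1 - W.apOfModel l := by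
  rw [WeierstrassCurve.apOfModel, WeierstrassCurve.traceOfFrobenius, Nat.card_zmod]
  ring

/-- **Fixed points.** If `a_ℓ ≡ ℓ + 1 (mod p)` for all good primes `ℓ ∉ T` then every element of
`G_ℚ` fixes a nonzero `p`-torsion point. -/
theorem lre_exists_fixed_of_eisenstein (W : WeierstrassCurve ℤ) (hΔ0 : W.Δ ≠ 0) {p : ℕ}
    (hp : p.Prime) (hp2 : p ≠ 2) (T : Finset ℕ)
    (heis : ∀ l : ℕ, l.Prime → l ∉ T → W.IsGoodPrimeFor l →
      (p : ℤ) ∣ ((l : ℤ) + 1 - W.apOfModel l)) (σ : GQ) :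
    ∃ P : Tors (W.map (Int.castRingHom ℚ)) p, P ≠ 0 ∧ σ • P = P := by
  have hΔ : (W.map (Int.castRingHom ℚ)).Δ ≠ 0 := by
    rw [WeierstrassCurve.map_Δ, eq_intCast]
    exact_mod_cast hΔ0
  have hcard := lre_natCard_torsionBy (W.map (Int.castRingHom ℚ)) hΔ hp.pos
  haveI : Finite (Tors (W.map (Int.castRingHom ℚ)) p) :=
    Nat.finite_of_card_ne_zero (by rw [hcard]; exact pow_ne_zero 2 hp.ne_zero)
  obtain ⟨L, hLfin, hLnorm, hL⟩ := lre_exists_level (W.map (Int.castRingHom ℚ)) p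
  haveI := hLfin
  haveI := hLnorm
  obtain ⟨l, hl, hlT, A, φ, hA, hφ, -, a, hcop, hLφ⟩ :=
    Fermat.Agent.FrobDensity.exists_frobenius_generating L σ
      (T ∪ {2, p} ∪ W.Δ.natAbs.primeFactors)
  simp only [Finset.mem_union, Finset.mem_insert, Finset.mem_singleton, not_or] at hlT
  obtain ⟨⟨hlT, hl2, hlp⟩, hlΔ⟩ := hlT
  have hgood : ¬ (l : ℤ) ∣ W.Δ := by
    intro h
    apply hlΔ
    rw [Nat.mem_primeFactors]
    refine ⟨hl, ?_, Int.natAbs_ne_zero.mpr hΔ0⟩
    exact Int.natCast_dvd.mp h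
  have hdvd : p ∣ (W.reductionMod l).card := by
    have := heis l hl hlT hgood
    rw [← lre_card_eq] at this
    exact_mod_cast this
  obtain ⟨P₀, hP₀, htors, hfix⟩ := lre_exists_fixed_point W hl hp hl2 hp2 hlp hgood hdvd A hA φ hφ
  have hmem : P₀ ∈ Submodule.torsionBy ℤ ((W.map (Int.castRingHom ℚ)).toAffine⁄Qb).Point p := by
    rw [Submodule.mem_torsionBy_iff, natCast_zsmul]
    exact htors
  refine ⟨⟨P₀, hmem⟩, fun h => hP₀ (congrArg Subtype.val h), ?_⟩
  have hφx : φ • (⟨P₀, hmem⟩ : Tors (W.map (Int.castRingHom ℚ)) p) = ⟨P₀, hmem⟩ :=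
    Subtype.ext hfix
  -- `σ ^ a` fixes the point
  have h1 : (σ ^ a) • (⟨P₀, hmem⟩ : Tors (W.map (Int.castRingHom ℚ)) p) = ⟨P₀, hmem⟩ := by
    rw [← lre_smul_eq_of_agree hL hLφ, hφx]
  -- `σ` is a power of `σ ^ a` on the level
  obtain ⟨b, hb⟩ := exists_pow_eq_self_of_coprime hcop
  have h2 : ∀ x ∈ L, ((σ ^ a) ^ b) x = σ x := by
    intro x hx
    have e1 := AlgEquiv.restrictNormal_commutes ((σ ^ a) ^ b) ↥L ⟨x, hx⟩
    have e2 := AlgEquiv.restrictNormal_commutes σ ↥L ⟨x, hx⟩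
    have e3 : ((σ ^ a) ^ b).restrictNormal ↥L = σ.restrictNormal ↥L := by
      have : AlgEquiv.restrictNormalHom (F := ℚ) (K₁ := Qb) ↥L ((σ ^ a) ^ b) =
          AlgEquiv.restrictNormalHom (F := ℚ) (K₁ := Qb) ↥L σ := by
        rw [map_pow, map_pow, hb]
      exact this
    rw [e3] at e1
    exact e1.symm.trans e2
  rw [← lre_smul_eq_of_agree hL h2]
  exact lre_pow_smul_eq h1 b

/-- **Reducibility.** Under the Eisenstein hypothesis `E[p]` is not irreducible. -/
theorem lre_not_irreducible_of_eisenstein (W : WeierstrassCurve ℤ) (hΔ0 : W.Δ ≠ 0) {p : ℕ}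
    (hp : p.Prime) (hp2 : p ≠ 2) (T : Finset ℕ)
    (heis : ∀ l : ℕ, l.Prime → l ∉ T → W.IsGoodPrimeFor l →
      (p : ℤ) ∣ ((l : ℤ) + 1 - W.apOfModel l)) :
    ¬ GaloisRepIsIrreducible (K := Qb) ℚ (W.map (Int.castRingHom ℚ)).toAffine p := by
  rintro ⟨-, hirr⟩
  haveI : Fact p.Prime := ⟨hp⟩
  have hΔ : (W.map (Int.castRingHom ℚ)).Δ ≠ 0 := by
    rw [WeierstrassCurve.map_Δ, eq_intCast]
    exact_mod_cast hΔ0
  have h2 := lre_finrank_torsionBy (W.map (Int.castRingHom ℚ)) hΔ hp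
  obtain ⟨v, hv, hstab⟩ := lre_exists_stable_line
    (galoisRep (S := ℚ) (K := Qb) (W.map (Int.castRingHom ℚ)).toAffine p).range h2 (by
      rintro g ⟨σ, rfl⟩
      obtain ⟨P, hP, hσP⟩ := lre_exists_fixed_of_eisenstein W hΔ0 hp hp2 T heis σ
      exact ⟨P, hP, hσP⟩)
  have hN : IsGaloisStable ℚ (Submodule.span (ZMod p) {v}) := by
    intro σ x hx
    obtain ⟨c, rfl⟩ := Submodule.mem_span_singleton.mp hx
    obtain ⟨c', hc'⟩ := hstab _ ⟨σ, rfl⟩
    rw [galoisRep_apply] at hc'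
    rw [smul_comm, hc']
    exact Submodule.smul_mem _ _ (Submodule.smul_mem _ _ (Submodule.mem_span_singleton_self v))
  rcases hirr _ hN with h | h
  · apply hv
    have := Submodule.mem_span_singleton_self (R := ZMod p) v
    rw [h, Submodule.mem_bot] at this
    exact this
  · have h3 := finrank_span_singleton (K := ZMod p) hv
    rw [h, finrank_top, h2] at h3
    norm_num at h3

/-- **LR-E: an irreducible `E[p]` is not Eisenstein.** For every finite set `T` of primes there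
is a prime `ℓ ∉ T` of good reduction with `a_ℓ(E) ≢ ℓ + 1 (mod p)`. -/
theorem lre_exists_prime_not_eisenstein (E : WeierstrassCurve ℚ) [E.IsElliptic]
    {W : WeierstrassCurve ℤ} (hW : W.IsIntegralModelOf E) {p : ℕ} (hp : p.Prime) (hp2 : p ≠ 2)
    (hirr : GaloisRepIsIrreducible (K := AlgebraicClosure ℚ) ℚ E p) (T : Finset ℕ) :
    ∃ ℓ : ℕ, ℓ.Prime ∧ ℓ ∉ T ∧ W.IsGoodPrimeFor ℓ ∧
      ¬ (p : ℤ) ∣ ((ℓ : ℤ) + 1 - W.apOfModel ℓ) := by
  by_contra hcon
  push Not at hcon
  obtain ⟨C, hC⟩ := hW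
  have hΔ0 : W.Δ ≠ 0 := by
    intro h0
    have h1 : (W.map (Int.castRingHom ℚ)).Δ = 0 := by
      rw [WeierstrassCurve.map_Δ, h0, _root_.map_zero]
    rw [← hC, WeierstrassCurve.variableChange_Δ] at h1
    rcases mul_eq_zero.mp h1 with h | h
    · exact (pow_ne_zero 12 (Units.ne_zero _)) h
    · exact E.Δ'.ne_zero (by rw [E.coe_Δ']; exact h)
  have hirr' : GaloisRepIsIrreducible (K := Qb) ℚ (C • E).toAffine p :=
    (Fermat.Agent.X015.galoisRepIsIrreducible_variableChange_iff E C p).mpr hirr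
  rw [hC] at hirr'
  exact lre_not_irreducible_of_eisenstein W hΔ0 hp hp2 T hcon hirr'

end Fermat.Agent.LR
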